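/-
MAZUR (Track M), package (B) (helper7), part 1: **the abstract Kummer-map lemma**.

`J` a `G`-module ("`J₀(p)(ℚ̄)`"), `X` a `G`-module with an injective equivariant map `ι : X →+ J`
(`X = M_k`, killed by `P^k`), `e : J →+ J` an equivariant endomorphism, `S` a cone-Selmer structure on
`X` with `#H̃¹(X) ≤ P^b`.  If `P^k • z = y` and the pair `(c, m)`, `ι (c g) = e (g • z - z)`, is a
cone-Selmer cocycle, then `P^b • e y = P^k • w` for a `G`-fixed `w` (`mzb_core`): the class of
`(c, m)` is killed by `P^b`, so `P^b • c = dx`, and `w := P^b • e z - ι x`.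
-/
import Fermat.Agent.Lib.Mazur.Sel.Defs

set_option autoImplicit false
set_option linter.unusedSectionVars false

namespace Fermat.Agent.Mazur

/-- an element of a finite abelian group of order `≤ P^b` which is killed by a power of the prime
`P` is killed by `P^b` -/
theorem mzb_pow_smul_eq_zero {H : Type*} [AddCommGroup H] [Finite H] {P : ℕ} (hP : P.Prime)
    {b k : ℕ} (hcard : Nat.card H ≤ P ^ b) (q : H) (hq : P ^ k • q = 0) : P ^ b • q = 0 := by
  have h1 : addOrderOf q ∣ P ^ k := addOrderOf_dvd_of_nsmul_eq_zero hq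
  obtain ⟨t, _, ht⟩ := (Nat.dvd_prime_pow hP).mp h1
  have h2 : addOrderOf q ∣ Nat.card H := addOrderOf_dvd_natCard q
  have h3 : P ^ t ≤ P ^ b := by
    rw [← ht]
    exact (Nat.le_of_dvd Nat.card_pos h2).trans hcard
  have h4 : t ≤ b := (Nat.pow_le_pow_iff_right hP.one_lt).mp h3
  apply addOrderOf_dvd_iff_nsmul_eq_zero.mp
  rw [ht]
  exact pow_dvd_pow P h4

section

variable {G : Type*} [Group G] [TopologicalSpace G] {J X : Type*} [AddCommGroup J]
  [DistribMulAction G J] [AddCommGroup X] [DistribMulAction G X] {Dp Ip : Subgroup G}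

/-- **the abstract Kummer-map lemma** -/
theorem mzb_core (S : MzsStr G X Dp Ip) (ι : X →+ J)
    (hιG : ∀ (g : G) (x : X), ι (g • x) = g • ι x)
    {P : ℕ} (hP : P.Prime) (k : ℕ) (e : J →+ J) (heG : ∀ (g : G) (x : J), e (g • x) = g • e x)
    (hXk : ∀ x : X, P ^ k • x = 0)
    [Finite S.H1] {b : ℕ} (hcard : Nat.card S.H1 ≤ P ^ b)
    {y z : J} (hz : P ^ k • z = y)
    (c : G → X) (hc : ∀ g, ι (c g) = e (g • z - z)) (m : X) (hcm : (c, m) ∈ S.Z1) :
    ∃ w : J, (∀ g : G, g • w = w) ∧ P ^ b • e y = P ^ k • w := by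
  set q0 : ↥S.Z1 := ⟨(c, m), hcm⟩ with hq0
  have hq0k : P ^ k • q0 = 0 := by
    apply Subtype.ext
    rw [AddSubgroup.coe_nsmul, hq0]
    show P ^ k • (c, m) = 0
    ext g
    · show (P ^ k • c) g = 0
      rw [Pi.smul_apply, hXk]
    · show P ^ k • m = 0
      exact hXk m
  have hqk : P ^ k • (QuotientAddGroup.mk q0 : S.H1) = 0 := by
    rw [← QuotientAddGroup.mk_nsmul, hq0k, QuotientAddGroup.mk_zero]
  have hqb := mzb_pow_smul_eq_zero hP hcard _ hqk
  rw [← QuotientAddGroup.mk_nsmul, QuotientAddGroup.eq_zero_iff, AddSubgroup.mem_addSubgroupOf,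
    AddSubgroup.coe_nsmul] at hqb
  obtain ⟨x, xp, _, h1, _⟩ := (S.mem_B1).mp hqb
  have h1' : ∀ g : G, P ^ b • c g = g • x - x := by
    intro g
    have := congrFun h1 g
    simpa using this
  refine ⟨P ^ b • e z - ι x, fun g => ?_, ?_⟩
  · have h2 : e (g • z) = e z + ι (c g) := by
      rw [hc g, map_sub]
      abel
    rw [smul_sub, smul_comm, ← heG, h2, smul_add, ← map_nsmul ι, h1' g, map_sub, hιG]
    abel
  · have h3 : P ^ k • ι x = 0 := by rw [← map_nsmul ι, hXk x, map_zero]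
    have h4 : P ^ k • e z = e y := by rw [← map_nsmul e, hz]
    rw [smul_sub, h3, sub_zero, smul_comm (P ^ k) (P ^ b), h4]

end

end Fermat.Agent.Mazur
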