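/-
MAZUR (Track M), package (B) (helper7), part 2: **the bound (BOUND')**.

For the Eisenstein projectors `e k = mzehE p 𝔓.p S₀ hS k` on `J₀(p)(ℚ̄)` (`𝔭` a place over the level
`p`, `𝔓` a place over the Eisenstein prime `P = 𝔓.p ≠ p`, `𝔯` an auxiliary place, `𝔯.p ∤ p P`):
from the numerics (N-α), (N-w) of (E2) and (R5) at `𝔓`,

  `∃ j, ∀ k, ∀ y ∈ J₀(p)(ℚ), ∃ z ∈ J₀(p)(ℚ), P ^ j • e k y = P ^ k • z`   (`mzb_bound`).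

Inputs: the flag `mzj_main`; the object/Selmer inequality `mzoObj`/`mzo_selmer`, (N-A)
`mzo_card_H0_le`, (N-δ) `mzli_delta`, the Kummer pair `mzo_kummer` (helper5); the abstract
Kummer-map lemma `mzb_core`; divisibility (K) `mzk_divisible` (helper1).
-/
import Fermat.Agent.Lib.Mazur.B.Core
import Fermat.Agent.Lib.Mazur.E.JH.Main
import Fermat.Agent.Lib.Mazur.Obj.Kummer
import Fermat.Agent.Lib.Mazur.Obj.NA

set_option autoImplicit false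
set_option linter.unusedSectionVars false
set_option linter.style.haveILetI false

namespace Fermat.Agent.Mazur

open ModularCurve Fermat.Agent.TW

local notation "Qb" => AlgebraicClosure ℚ
local notation "GQ" => (AlgebraicClosure ℚ ≃ₐ[ℚ] AlgebraicClosure ℚ)

/-- **the numerics**: from the Selmer inequality, (N-A), (N-δ), (N-α): a bound for `#H̃¹` and
(BONUS) -/
theorem mzb_numerics {h1 h0 a d n CA Cα : ℕ} (h1pos : 0 < h1) (ha : 0 < a)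
    (hSel : h1 * a ≤ h0 * d) (hA : h0 ≤ CA) (hδ : d ^ 2 ≤ n) (hα : n ≤ a ^ 2 * Cα) :
    h1 ≤ CA ^ 2 * Cα ∧ n ≤ d ^ 2 * (CA ^ 2 * Cα) := by
  have hkey : (h1 * a) ^ 2 ≤ CA ^ 2 * d ^ 2 := by
    calc (h1 * a) ^ 2 ≤ (h0 * d) ^ 2 := Nat.pow_le_pow_left hSel 2
      _ = h0 ^ 2 * d ^ 2 := mul_pow h0 d 2
      _ ≤ CA ^ 2 * d ^ 2 := Nat.mul_le_mul_right _ (Nat.pow_le_pow_left hA 2)
  constructor
  · have h2 : h1 ^ 2 * a ^ 2 ≤ (CA ^ 2 * Cα) * a ^ 2 := by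
      calc h1 ^ 2 * a ^ 2 = (h1 * a) ^ 2 := (mul_pow h1 a 2).symm
        _ ≤ CA ^ 2 * d ^ 2 := hkey
        _ ≤ CA ^ 2 * n := Nat.mul_le_mul_left _ hδ
        _ ≤ CA ^ 2 * (a ^ 2 * Cα) := Nat.mul_le_mul_left _ hα
        _ = (CA ^ 2 * Cα) * a ^ 2 := by ring
    have h3 : h1 ^ 2 ≤ CA ^ 2 * Cα := Nat.le_of_mul_le_mul_right h2 (by positivity)
    calc h1 = h1 ^ 1 := (pow_one h1).symm
      _ ≤ h1 ^ 2 := Nat.pow_le_pow_right h1pos (by norm_num)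
      _ ≤ CA ^ 2 * Cα := h3
  · calc n ≤ a ^ 2 * Cα := hα
      _ ≤ (h1 * a) ^ 2 * Cα := by
        apply Nat.mul_le_mul_right
        apply Nat.pow_le_pow_left
        exact Nat.le_mul_of_pos_left a h1pos
      _ ≤ (CA ^ 2 * d ^ 2) * Cα := Nat.mul_le_mul_right _ hkey
      _ = d ^ 2 * (CA ^ 2 * Cα) := by ring

section

variable {p : ℕ} [hpF : Fact p.Prime]

/-- **(BOUND')** -/
theorem mzb_bound (𝔭 𝔓 𝔯 : FFPlace) (h𝔭 : 𝔭.p = p) (hN : ¬ 𝔓.p ∣ p) (hr : ¬ 𝔯.p ∣ p)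
    (hrP : 𝔯.p ≠ 𝔓.p) {S₀ : Finset ℕ} (hS : MzehGood p 𝔓.p S₀)
    (hR5 : ∀ (k : ℕ) (x : JZero p), mzrRho 𝔓 p hN x = 0 →
      mzrRho 𝔓 p hN (mzehE p 𝔓.p S₀ hS k x) = 0)
    (hα : ∃ C : ℕ, ∀ k : ℕ,
      Nat.card (MzjX hS k) ≤ (mzqiX0 𝔓 p hN (mzjVal hS k)).index ^ 2 * C)
    (hw : ∃ φ ∈ 𝔓.D, ∃ aP : ℕ, ∀ k : ℕ, ∀ χ : AddChar (MzjX hS k) Qb,
      ∃ χ' : AddChar (MzjX hS k) Qb, ∀ x ∈ mzqiX0 𝔓 p hN (mzjVal hS k),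
        χ x ^ (𝔓.p ^ aP) = φ (χ' (φ⁻¹ • x)) / χ' x) :
    ∃ j : ℕ, ∀ k : ℕ, ∀ y : JZero p, (∀ σ : GQ, σ • y = y) →
      ∃ z : JZero p, (∀ σ : GQ, σ • z = z) ∧
        𝔓.p ^ j • mzehE p 𝔓.p S₀ hS k y = 𝔓.p ^ k • z := by
  have hp : p.Prime := hpF.out
  have hP : (𝔓.p).Prime := 𝔓.hp
  have hPp : 𝔓.p ≠ p := fun h => hN (h ▸ dvd_refl _)
  obtain ⟨CA, hCA⟩ := mzo_card_H0_le p 𝔯 hr
  obtain ⟨Cα, hCα⟩ := hα
  obtain ⟨φ, hφ, aP, hNw⟩ := hw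
  set C : ℕ := CA ^ 2 * Cα with hC
  have hCb : C ≤ 𝔓.p ^ C := (Nat.lt_pow_self hP.one_lt).le
  set a' : ℕ := ((𝔭.p ^ 2 - 1).factorization 𝔓.p + C) + aP with ha'
  refine ⟨a' + C, fun k y hy => ?_⟩
  -- the object at level `k`
  have hbad : ∀ ℓ : ℕ, ℓ.Prime → ℓ ∣ p → ℓ = 𝔭.p := by
    intro ℓ hℓ hℓp
    rw [h𝔭]
    exact (Nat.prime_dvd_prime_iff_eq hℓ hp).mp hℓp
  have hPk : ∀ x : MzjX hS k, 𝔓.p ^ k • x = 0 := by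
    intro x
    apply mzjVal_injective hS k
    rw [map_nsmul, map_zero]
    exact mzehM_tors hS (mzjVal_mem hS k x)
  obtain ⟨n, F, hF0, hFn, hmono, hstabG, hcard, htype⟩ := mzj_main hS k
  have hιG : ∀ (g : GQ) (x : MzjX hS k), mzjVal hS k (g • x) = g • mzjVal hS k x :=
    mzjVal_smul hS k
  obtain ⟨hfinH1, hSel⟩ := mzo_selmer p 𝔭 𝔓 hN hbad (mzjVal hS k) (mzjVal_injective hS k) hιG k
    hPk n F hF0 hFn hmono hcard hstabG htype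
  set O := mzoObj p 𝔭 𝔓 hN hbad (mzjVal hS k) (mzjVal_injective hS k) hιG k hPk n F hF0 hFn hmono
    (fun j hj τ _ x hx => hstabG j hj τ x hx) hcard with hO
  haveI := hfinH1
  -- the numerics
  have hrPk : ¬ 𝔯.p ∣ 𝔓.p ^ k := fun h =>
    hrP ((Nat.prime_dvd_prime_iff_eq 𝔯.hp hP).mp (𝔯.hp.dvd_of_dvd_pow h))
  obtain ⟨hfinH0, hH0⟩ := hCA (𝔓.p ^ k) hrPk (mzjVal hS k) (mzjVal_injective hS k) hιG hPk O.str
  have hδ : (mzoXp 𝔭 (MzjX hS k)).index ^ 2 ≤ Nat.card (MzjX hS k) :=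
    mzli_delta p 𝔭 (h𝔭 ▸ dvd_refl _)
      (by
        rw [h𝔭]
        intro h
        have h1 : p ^ 2 ≤ p := Nat.le_of_dvd hp.pos h
        have h2 : p * 2 ≤ p ^ 2 := by rw [pow_two]; exact Nat.mul_le_mul_left p hp.two_le
        have := hp.pos
        omega)
      hP (h𝔭 ▸ hPp) (mzjVal hS k) (mzjVal_injective hS k) hιG hPk (fun x => mem_mzoXp 𝔭 x)
  have hX0pos : 0 < (mzqiX0 𝔓 p hN (mzjVal hS k)).index :=
    Nat.pos_of_ne_zero (AddSubgroup.index_ne_zero_of_finite)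
  obtain ⟨hH1, hbonus⟩ := mzb_numerics (Nat.card_pos (α := O.str.H1)) hX0pos hSel hH0 hδ (hCα k)
  have hH1' : Nat.card O.str.H1 ≤ 𝔓.p ^ C := hH1.trans hCb
  have hbonus' : Nat.card (MzjX hS k) ≤ (mzoXp 𝔭 (MzjX hS k)).index ^ 2 * 𝔓.p ^ C :=
    hbonus.trans (Nat.mul_le_mul_left _ hCb)
  -- the Kummer pair
  obtain ⟨z, hz⟩ := mzk_divisible p (pow_ne_zero k hP.ne_zero) (𝔓.p ^ a' • y)
  obtain ⟨c, m, hc, hcm⟩ := mzo_kummer p 1 𝔭 𝔓 hN (by rw [h𝔭, one_mul])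
    (by rw [h𝔭]; exact fun h => hp.one_lt.ne' (Nat.dvd_one.mp h)) hbad (mzjVal hS k)
    (mzjVal_injective hS k) hιG k hPk n F hF0 hFn hmono
    (fun j hj τ _ x hx => hstabG j hj τ x hx) hcard (mzehE p 𝔓.p S₀ hS k)
    (mzehE_smul hS k)
    (fun x hx => ⟨(⟨mzehE p 𝔓.p S₀ hS k x, mzehE_mem_M hS hx⟩ : ↥(mzehM p 𝔓.p S₀ hS k)), rfl⟩)
    (hR5 k) hbonus' hφ aP (hNw k) hy hz
  obtain ⟨w, hwfix, hw⟩ := mzb_core O.str (mzjVal hS k) hιG hP k (mzehE p 𝔓.p S₀ hS k)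
    (mzehE_smul hS k) hPk hH1' hz c hc m hcm
  refine ⟨w, hwfix, ?_⟩
  rw [← hw, map_nsmul, ← mul_smul, ← pow_add, add_comm]

end

end Fermat.Agent.Mazur
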